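/-
Project M59 (S59), block [E'] (architect helper3), cell [EP-LG2] (helper5), tag `m59epl_`.
NEW-AT-`t`, `t ∈ Q`, for the LEVEL `(m59epw_sli_data …).toLevel` (`Twin/SeamLevelInst.lean`): the second
half of the clause `twe_Level.IsLG2` of `m59ep_Chain_stmt`.  Main's generic `twe_sna_level`
(`TW/Aut/SeamNewAt.lean`, helper24; needs only `Odd p`) applied to the concrete data: `ι` = the inclusion
`P = prim W(Γ_H, 𝒪) ⊆ W(Γ_H, 𝒪)`, `hψ = twe_smod_psi_tau`, `hρ = twe_smod_rho_coe`.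
-/
import Mathlib
import Fermat.Agent.TW.Aut.SeamNewAt
import Fermat.Agent.M59.EP.Twin.SeamLevelInst

set_option autoImplicit false
set_option linter.unusedSectionVars false
set_option linter.unusedVariables false
set_option linter.style.haveILetI false
set_option synthInstance.maxHeartbeats 400000
set_option maxHeartbeats 1000000

noncomputable section

namespace Fermat.Agent.M59

open IsLocalRing Polynomial CuspForm Fermat.Agent.JT3 Fermat.Agent.LR CongruenceSubgroup Fermat.Agent.TW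
open scoped MatrixGroups
open Fermat.Agent.S56

section data

variable {p : ℕ} [Fact p.Prime]
  {𝒪 : Type} [CommRing 𝒪] [IsDomain 𝒪] [IsDiscreteValuationRing 𝒪]
  [IsAdicComplete (maximalIdeal 𝒪) 𝒪] [Finite (ResidueField 𝒪)] [CharZero 𝒪]
  {N : ℕ} [NeZero N] {S : Finset ℕ} {θ : heckeAlgebra N 2 (↑S : Set ℕ) →+* ResidueField 𝒪}

variable (hp2 : p ≠ 2) (hp𝒪 : (p : 𝒪) ∈ maximalIdeal 𝒪) (hrig : m59ep_Rigid p N)
    (hpS : p ∈ S) (hNS : ∀ ℓ : ℕ, ℓ.Prime → ℓ ∣ N → ℓ ∈ S)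
    (ρbar : ResidualGaloisRep (ResidueField 𝒪)) (hcompat : twt_Compat θ ρbar)
    (hirr : ρbar.IsAbsolutelyIrreducible)
    (B : twe_Base 𝒪 N S θ) (hfull : B.IsFull)
    (Q : Finset ℕ) [NeZero (twe_Nbal N Q ∅)] (hQS : ∀ t ∈ Q, t ∉ S) (hTW : twe_IsTWSet θ p Q)
    (θ' : heckeAlgebra (twe_Nbal N Q ∅) 2 (↑(S ∪ Q) : Set ℕ) →+* ResidueField 𝒪)
    (θ'_eq : ∀ (ℓ : ℕ) (hℓ : ℓ.Prime) (h1 : ¬ ℓ ∣ twe_Nbal N Q ∅) (h2 : ℓ ∉ (↑(S ∪ Q) : Set ℕ))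
      (h3 : ¬ ℓ ∣ N) (h4 : ℓ ∉ (↑S : Set ℕ)),
      θ' (heckeAlgebra.T hℓ h1 h2) = θ (heckeAlgebra.T hℓ h3 h4))
    (B' : twe_Base 𝒪 (twe_Nbal N Q ∅) (S ∪ Q) θ') (hfull' : B'.IsFull)
    {M : ℕ} [NeZero M] (hM : M = N * ∏ t ∈ Q, t)
    (hQp : ∀ t ∈ Q, t.Prime) (hQM : ∀ t ∈ Q, t ∣ M)
    (F : twe_sm_Frame M (twe_di_hom p Q M hQp hQM).ker (twe_sm_q (twe_Nbal N Q ∅) (S ∪ Q)))
    (a : twe_sm_Idx (twe_Nbal N Q ∅) (S ∪ Q) → 𝒪) (ha : twe_sm_IsLift θ' a)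

/-- shorthand. -/
local notation "𝔇" => m59epw_sli_data hp2 hp𝒪 hrig hpS hNS ρbar hcompat hirr B hfull Q hQS hTW θ'
  θ'_eq B' hfull' hM hQp hQM F a ha

/-- the Hecke action of `m59epw_sli_data` on generators: `T'_ℓ`. -/
theorem m59epl_data_psi_tau (ℓ : twe_sm_Idx (twe_Nbal N Q ∅) (S ∪ Q))
    (y : ↥(twe_pr_prim (twe_sm_TY 𝒪 F) a)) :
    (twe_pr_prim (twe_sm_TY 𝒪 F) a).subtype ((𝔇).ψ (twe_sa_tau B' ℓ) y) =
      twe_sm_TY 𝒪 F ℓ ((twe_pr_prim (twe_sm_TY 𝒪 F) a).subtype y) :=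
  twe_smod_psi_tau B' hfull' (twe_sli_hNS' hNS hQp) F a ha
    (twe_sri_level 𝒪 p (twe_sli_hQ hNS hQS hTW) hM
      ((Fact.out : p.Prime).odd_of_ne_two hp2) hQp hQM
      (twe_sm_q (twe_Nbal N Q ∅) (S ∪ Q)) (fun i => i.2.2.1) F) ℓ y

/-- the diamonds of `m59epw_sli_data`: conjugation. -/
theorem m59epl_data_rho_coe (g : Gamma0 M) (y : ↥(twe_pr_prim (twe_sm_TY 𝒪 F) a)) :
    (twe_pr_prim (twe_sm_TY 𝒪 F) a).subtype ((𝔇).ρ (twe_di_d1 p Q M hQp hQM g) y) =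
      twe_wl_conj (twe_di_hom p Q M hQp hQM).ker g
        ((twe_pr_prim (twe_sm_TY 𝒪 F) a).subtype y) :=
  twe_smod_rho_coe (twe_di_d1 p Q M hQp hQM) (twe_di_d1_surjective p Q M hQp hQM)
    (twe_di_d1_eq_one_iff p Q M hQp hQM) F a g y

/-- **NEW-AT-`t`, `t ∈ Q`**, for the level `(m59epw_sli_data Ξ).toLevel`. -/
theorem m59epl_new (t : ℕ) (ht : t ∈ Q) :
    twe_NewAt (𝔇).toLevel.H' ((𝔇).toLevel.dia t ht) t :=
  twe_sna_level (𝔇) ((Fact.out : p.Prime).odd_of_ne_two hp2) (twe_sli_hQ hNS hQS hTW) hM hQM F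
    (twe_pr_prim (twe_sm_TY 𝒪 F) a).subtype Subtype.val_injective
    (fun ℓ y => m59epl_data_psi_tau hp2 hp𝒪 hrig hpS hNS ρbar hcompat hirr B hfull Q hQS hTW θ'
      θ'_eq B' hfull' hM hQp hQM F a ha ℓ y)
    (fun g y => m59epl_data_rho_coe hp2 hp𝒪 hrig hpS hNS ρbar hcompat hirr B hfull Q hQS hTW θ'
      θ'_eq B' hfull' hM hQp hQM F a ha g y) t ht

end data

end Fermat.Agent.M59
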