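/-
Project M59 (S59), block [E'] (architect helper3), cell [EP-LG2] (helper5), tag `m59epl_`.
Twin of `twe_soi_gen` (`TW/Aut/SeamOldInst.lean`, helper26): the `kills` clause of `twe_OldAt`, generic in
the pair `H'' ≤ H'` and the presentations `d''`, `d'`, for every ODD `p`: `5 ≤ p` becomes `p ≠ 2`, `¬ p ∣ A`
is dropped, `h12` becomes `hPE` (every `γ ∈ Γ₀(M)` with `tr² ≤ 4` lies in `Γ_{H''}`).  Same proof, through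
the twins `m59epw_sg_base_at`, `m59epw_dt_M1F`, `m59epw_sc_prim_iff` (helper22) and `m59epw_fkr_main`.
-/
import Mathlib
import Fermat.Agent.TW.Aut.SeamOldInst
import Fermat.Agent.M59.EP.Twin.FreePE
import Fermat.Agent.M59.EP.Twin.DatumM1
import Fermat.Agent.M59.EP.Twin.SeamRing
import Fermat.Agent.M59.EP.Twin.SeamCoinv

set_option autoImplicit false
set_option linter.unusedSectionVars false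
set_option linter.unusedVariables false
set_option linter.style.haveILetI false
set_option synthInstance.maxHeartbeats 400000
set_option maxHeartbeats 1000000

noncomputable section

namespace Fermat.Agent.M59

open IsLocalRing Polynomial CuspForm Fermat.Agent.JT3 Fermat.Agent.LR CongruenceSubgroup Fermat.Agent.TW
open scoped MatrixGroups

section gen

variable {p : ℕ} [Fact p.Prime]
  {𝒪 : Type} [CommRing 𝒪] [IsDomain 𝒪] [IsDiscreteValuationRing 𝒪]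
  [IsAdicComplete (maximalIdeal 𝒪) 𝒪] [Finite (ResidueField 𝒪)] [CharZero 𝒪]

/-- **`kills`, generic concrete form** (twin of `twe_soi_gen`: `p` odd, `p ∣ A` allowed, `hPE` in place
of `h12`). -/
theorem m59epl_old_gen (hp2 : p ≠ 2) (hp𝒪 : (p : 𝒪) ∈ maximalIdeal 𝒪)
    {N : ℕ} [NeZero N] {S : Finset ℕ}
    (θ : heckeAlgebra N 2 (↑S : Set ℕ) →+* ResidueField 𝒪)
    (ρbar : ResidualGaloisRep (ResidueField 𝒪))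
    (hc : twt_Compat θ ρbar) (hirr : ρbar.IsAbsolutelyIrreducible)
    {A : ℕ} [NeZero A] {S₁ : Finset ℕ} (hNA : N ∣ A) (hSS₁ : S ⊆ S₁)
    (hpS₁ : p ∈ S₁) (hNS₁ : ∀ ℓ : ℕ, ℓ.Prime → ℓ ∣ A → ℓ ∈ S₁)
    {θ₁ : heckeAlgebra A 2 (↑S₁ : Set ℕ) →+* ResidueField 𝒪}
    (hθ₁ : ∀ (ℓ : ℕ) (hℓ : ℓ.Prime) (h1 : ¬ ℓ ∣ A) (h2 : ℓ ∉ (↑S₁ : Set ℕ)) (h3 : ¬ ℓ ∣ N)
      (h4 : ℓ ∉ (↑S : Set ℕ)), θ₁ (heckeAlgebra.T hℓ h1 h2) = θ (heckeAlgebra.T hℓ h3 h4))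
    (B₁ : twe_Base 𝒪 A S₁ θ₁) (hfull₁ : B₁.IsFull)
    {At : ℕ} [NeZero At] (hNAt : N ∣ At) (hAtA : At ∣ A)
    {M : ℕ} [NeZero M] {H'' H' : Subgroup (ZMod M)ˣ} (h : H'' ≤ H')
    (F : twe_sm_Frame M H'' (twe_sm_q A S₁)) (a : twe_sm_Idx A S₁ → 𝒪)
    (ha : twe_sm_IsLift θ₁ a)
    (hrel : twe_at_Rel (twe_sm_TX 𝒪 A (twe_sm_q A S₁)) (twe_sm_TY 𝒪 F))
    (hrelt : twe_at_Rel (twe_sm_TX 𝒪 At (twe_sm_q A S₁))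
      (twe_sm_TY 𝒪 (twe_fx_frame_mono h F)))
    (hneg : (-1 : SL(2, ℤ)) ∈ twe_GamH M H'')
    (hPE : ∀ γ : SL(2, ℤ), γ ∈ Gamma0 M → lrpd_tr γ ^ 2 ≤ 4 → γ ∈ twe_GamH M H'')
    {Δ'' Δ' : Type} [CommGroup Δ''] [Fintype Δ''] [CommGroup Δ'] [Fintype Δ']
    (d'' : Gamma0 M →* Δ'') (hd'' : Function.Surjective d'')
    (hdk'' : ∀ g, d'' g = 1 ↔ (g : SL(2, ℤ)) ∈ twe_GamH M H'')
    (d' : Gamma0 M →* Δ') (hd' : Function.Surjective d')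
    (hdk' : ∀ g, d' g = 1 ↔ (g : SL(2, ℤ)) ∈ twe_GamH M H')
    {n : ℕ} (hΔ'' : ∀ δ : Δ'', δ ^ (p ^ n) = 1) (hΔ' : ∀ δ : Δ', δ ^ (p ^ n) = 1)
    (γ : Δ'')
    (hcyc : ∀ g : Gamma0 M, (g : SL(2, ℤ)) ∈ twe_GamH M H' → ∃ k : ℕ, d'' g = γ ^ k) :
    ∃ (θt : heckeAlgebra At 2 (↑S₁ : Set ℕ) →+* ResidueField 𝒪)
      (Bt : twe_Base 𝒪 At S₁ θt) (πt : B₁.T →ₐ[𝒪] Bt.T),
      (∀ (ℓ : ℕ) (hℓ : ℓ.Prime) (h1 : ¬ ℓ ∣ A) (h2 : ℓ ∉ (↑S₁ : Set ℕ)) (h3 : ¬ ℓ ∣ At),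
        πt (B₁.H.π (heckeAlgebra.T hℓ h1 h2)) = Bt.H.π (heckeAlgebra.T hℓ h3 h2)) ∧
      ∀ x : B₁.T, πt x = 0 → ∀ m : ↥(twe_pr_prim (twe_sm_TY 𝒪 F) a),
        ∃ m' : ↥(twe_pr_prim (twe_sm_TY 𝒪 F) a),
          twe_smod_psi B₁ hfull₁ hNS₁ F a ha hrel x m =
            twe_smod_rho d'' hd'' hdk'' F a γ m' - m' := by
  classical
  have hpP : p.Prime := Fact.out
  have hAtS₁ : ∀ ℓ : ℕ, ℓ.Prime → ℓ ∣ At → ℓ ∈ S₁ := fun ℓ hℓ hd => hNS₁ ℓ hℓ (hd.trans hAtA)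
  -- the base package at the lower level
  obtain ⟨θt, hθt, hct, Bt, hBt⟩ := m59epw_sg_base_at m59epw_dt_M1F p hp2 𝒪 hp𝒪 N S θ ρbar hc hirr At
    hNAt S₁ hSS₁ hpS₁ hAtS₁
  -- the compatibility of `θ₁`
  have hc₁ : twt_Compat θ₁ ρbar := twe_sg_compat_lift hNA hSS₁ θ θ₁ hθ₁ ρbar hc
  -- the transition map
  have hθ₁t : ∀ (ℓ : ℕ) (hℓ : ℓ.Prime) (h1 : ¬ ℓ ∣ A) (h2 : ℓ ∉ (↑S₁ : Set ℕ)) (h3 : ¬ ℓ ∣ At)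
      (h4 : ℓ ∉ (↑S₁ : Set ℕ)), θ₁ (heckeAlgebra.T hℓ h1 h2) = θt (heckeAlgebra.T hℓ h3 h4) := by
    intro ℓ hℓ h1 h2 h3 h4
    have h5 : ¬ ℓ ∣ N := fun hd => h1 (hd.trans hNA)
    have h6 : ℓ ∉ (↑S : Set ℕ) := fun hm => h2 (Finset.coe_subset.mpr hSS₁ hm)
    rw [hθ₁ ℓ hℓ h1 h2 h5 h6, hθt ℓ hℓ h3 h4 h5 h6]
  obtain ⟨πt, hπt, -⟩ := twe_sg_hom twe_sh_main A At S₁ S₁ θ₁ θt B₁ Bt hfull₁ hAtA
    (Finset.Subset.refl S₁) hNS₁ hθ₁t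
  refine ⟨θt, Bt, πt, fun ℓ hℓ h1 h2 h3 => hπt ℓ hℓ h1 h2 h3 h2, ?_⟩
  -- the good primes
  have hgood : ∀ ℓ : twe_sm_Idx A S₁, ¬ ℓ.1 ∣ At := fun ℓ hd => ℓ.2.2.1 (hd.trans hAtA)
  -- fullness of `B_t` for the family of the good primes of `(A, S₁)`
  have hq : ∀ i : twe_sm_Idx A S₁, pk_Good At S₁ (twe_sm_q A S₁ i) :=
    fun i => ⟨i.2.1, hgood i, i.2.2.2⟩
  have hqall : ∀ ℓ, pk_Good At S₁ ℓ → ∃ i : twe_sm_Idx A S₁, twe_sm_q A S₁ i = ℓ := by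
    intro ℓ hℓ
    exact ⟨⟨ℓ, hℓ.1, fun hd => hℓ.2.2 (Finset.mem_coe.mpr (hNS₁ ℓ hℓ.1 hd)), hℓ.2.2⟩, rfl⟩
  have hfullt : ∀ x ∈ twe_pr_prim (twe_sm_TX 𝒪 At (twe_sm_q A S₁)) a,
      x ∈ LinearMap.range Bt.ι := by
    intro x hx
    refine (m59epw_sc_prim_iff (p := p) hp2 hp𝒪 hpS₁ hAtS₁ ρbar hct hirr Bt hBt S₁
      (Finset.Subset.refl S₁) (twe_sm_q A S₁) hq hqall a (fun i => ?_) x).mp hx
    rw [ha i]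
    exact hθ₁t _ _ _ _ _ _
  -- the non-Eisenstein prime
  have hpk : ((p : ℕ) : ResidueField 𝒪) = 0 := by
    have h1 : residue 𝒪 (p : 𝒪) = 0 := (residue_eq_zero_iff _).mpr hp𝒪
    rwa [map_natCast] at h1
  haveI : CharP (ResidueField 𝒪) p := (CharP.charP_iff_prime_eq_zero hpP).2 hpk
  obtain ⟨ℓ₀, hℓ₀, hℓ₀A, hℓ₀S, -, -, -, hne₀⟩ := twe_ne_main_eis hp2 θ₁ ρbar hc₁ hirr p hpP.pos
    dvd_rfl ∅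
  have hne : residue 𝒪 (a ⟨ℓ₀, hℓ₀, hℓ₀A, hℓ₀S⟩) ≠
      ((twe_sm_q A S₁ ⟨ℓ₀, hℓ₀, hℓ₀A, hℓ₀S⟩ + 1 : ℕ) : ResidueField 𝒪) := by
    rw [ha ⟨ℓ₀, hℓ₀, hℓ₀A, hℓ₀S⟩, Nat.cast_add, Nat.cast_one]
    exact hne₀
  -- representatives
  haveI : Fintype ↥(twe_rr_idx d'' H') := Fintype.ofFinite _
  haveI := F.hq
  have hker := (m59epw_fkr_main (𝒪 := 𝒪) h hneg hPE d'' hd'' hdk'' d' hd' hdk' hpP hp2 hp𝒪 hΔ'' hΔ'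
    (twe_sm_q A S₁) F.hM Subtype.val_injective F.s F.hs a ⟨ℓ₀, hℓ₀, hℓ₀A, hℓ₀S⟩ hne
    (twe_sd_reps_mem d' hd') (twe_sd_reps_bij d' hd' hdk')
    (twe_rr_rep_mem d'') (twe_rr_rep_bij d'' hdk'')).2
  intro x hx m
  exact twe_sok_kills B₁ hfull₁ hNS₁ h F a ha hrel d'' hd'' hdk'' γ hcyc Bt hgood hfullt hrelt πt
    (fun ℓ => hπt ℓ.1 ℓ.2.1 ℓ.2.2.1 ℓ.2.2.2 (hgood ℓ) ℓ.2.2.2)
    (twe_rr_rep_mem d'') (twe_rr_rep_bij d'' hdk'') hker x hx m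

end gen

end Fermat.Agent.M59
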