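/-
Project M59 (S59), block [E'] (architect helper3), cell [EP-LG2] (helper5), tag `m59epl_`.
OLD-AT-`t`, `t ∈ Q`, for the LEVEL `(m59epw_sli_data …).toLevel` (`Twin/SeamLevelInst.lean`): the first half
of the clause `twe_Level.IsLG2` of `m59ep_Chain_stmt`.  Main never wrote this instance (it has the big
system only: `twe_soi_bigQ`); the pattern is the same, with the one-set lemmas of main:
`twe_di_erase_le`, `twe_di_erase_cyclic` (`DeltaIso2`), `twe_sri_oldLevel` (`SeamRelInst`),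
`twe_sok_oldAt_level` (`SeamOldKills`), and the generic `m59epl_old_gen` (`LG2/OldGen.lean`) for the pair
`H'' = ker ((ℤ/M)ˣ → Δ_Q) ≤ H' = ker ((ℤ/M)ˣ → Δ_{Q ∖ {t}})`, `γ = twe_gen p Q t`.
-/
import Mathlib
import Fermat.Agent.M59.EP.LG2.OldGen
import Fermat.Agent.M59.EP.Twin.SeamLevelInst

set_option autoImplicit false
set_option linter.unusedSectionVars false
set_option linter.unusedVariables false
set_option linter.style.haveILetI false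
set_option synthInstance.maxHeartbeats 400000
set_option maxHeartbeats 1000000

noncomputable section

namespace Fermat.Agent.M59

open IsLocalRing Polynomial CuspForm Fermat.Agent.JT3 Fermat.Agent.LR CongruenceSubgroup Fermat.Agent.TW
open scoped MatrixGroups
open Fermat.Agent.S56

section data

variable {p : ℕ} [Fact p.Prime]
  {𝒪 : Type} [CommRing 𝒪] [IsDomain 𝒪] [IsDiscreteValuationRing 𝒪]
  [IsAdicComplete (maximalIdeal 𝒪) 𝒪] [Finite (ResidueField 𝒪)] [CharZero 𝒪]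
  {N : ℕ} [NeZero N] {S : Finset ℕ} {θ : heckeAlgebra N 2 (↑S : Set ℕ) →+* ResidueField 𝒪}

variable (hp2 : p ≠ 2) (hp𝒪 : (p : 𝒪) ∈ maximalIdeal 𝒪) (hrig : m59ep_Rigid p N)
    (hpS : p ∈ S) (hNS : ∀ ℓ : ℕ, ℓ.Prime → ℓ ∣ N → ℓ ∈ S)
    (ρbar : ResidualGaloisRep (ResidueField 𝒪)) (hcompat : twt_Compat θ ρbar)
    (hirr : ρbar.IsAbsolutelyIrreducible)
    (B : twe_Base 𝒪 N S θ) (hfull : B.IsFull)
    (Q : Finset ℕ) [NeZero (twe_Nbal N Q ∅)] (hQS : ∀ t ∈ Q, t ∉ S) (hTW : twe_IsTWSet θ p Q)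
    (θ' : heckeAlgebra (twe_Nbal N Q ∅) 2 (↑(S ∪ Q) : Set ℕ) →+* ResidueField 𝒪)
    (θ'_eq : ∀ (ℓ : ℕ) (hℓ : ℓ.Prime) (h1 : ¬ ℓ ∣ twe_Nbal N Q ∅) (h2 : ℓ ∉ (↑(S ∪ Q) : Set ℕ))
      (h3 : ¬ ℓ ∣ N) (h4 : ℓ ∉ (↑S : Set ℕ)),
      θ' (heckeAlgebra.T hℓ h1 h2) = θ (heckeAlgebra.T hℓ h3 h4))
    (B' : twe_Base 𝒪 (twe_Nbal N Q ∅) (S ∪ Q) θ') (hfull' : B'.IsFull)
    {M : ℕ} [NeZero M] (hM : M = N * ∏ t ∈ Q, t)
    (hQp : ∀ t ∈ Q, t.Prime) (hQM : ∀ t ∈ Q, t ∣ M)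
    (F : twe_sm_Frame M (twe_di_hom p Q M hQp hQM).ker (twe_sm_q (twe_Nbal N Q ∅) (S ∪ Q)))
    (a : twe_sm_Idx (twe_Nbal N Q ∅) (S ∪ Q) → 𝒪) (ha : twe_sm_IsLift θ' a)

/-- shorthand. -/
local notation "𝔇" => m59epw_sli_data hp2 hp𝒪 hrig hpS hNS ρbar hcompat hirr B hfull Q hQS hTW θ'
  θ'_eq B' hfull' hM hQp hQM F a ha

/-- **OLD-AT-`t`, `t ∈ Q`**, for the level `(m59epw_sli_data Ξ).toLevel`. -/
theorem m59epl_old (t : ℕ) (ht : t ∈ Q) :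
    ∃ _ : NeZero (twe_Nbal N Q ∅ / t),
      Nonempty (twe_OldAt (𝔇).toLevel.H' ((𝔇).toLevel.dia t ht) t) := by
  classical
  have hp : p.Prime := Fact.out
  have hodd : Odd p := hp.odd_of_ne_two hp2
  have hQ : ∀ t ∈ Q, t.Prime ∧ ¬ t ∣ N := twe_sli_hQ hNS hQS hTW
  have htp : t.Prime := hQp t ht
  have htA : t ∣ twe_Nbal N Q ∅ := twe_di_dvd_Nbal_Q N Q ∅ ht
  have hA0 : twe_Nbal N Q ∅ ≠ 0 := NeZero.ne _
  haveI hne0 : NeZero (twe_Nbal N Q ∅ / t) :=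
    ⟨(Nat.div_pos (Nat.le_of_dvd (Nat.pos_of_ne_zero hA0) htA) htp.pos).ne'⟩
  refine ⟨hne0, ?_⟩
  have hNA : N ∣ twe_Nbal N Q ∅ := twe_sli_dvd_Nbal N Q
  have htN : t * N ∣ twe_Nbal N Q ∅ := by
    unfold twe_Nbal
    rw [mul_comm t N]
    exact Dvd.dvd.mul_right (mul_dvd_mul_left N ((dvd_pow_self t two_ne_zero).trans
      (Finset.dvd_prod_of_mem (fun t => t ^ 2) ht))) _
  have hNAt : N ∣ twe_Nbal N Q ∅ / t := Nat.dvd_div_of_mul_dvd htN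
  have hAtA : twe_Nbal N Q ∅ / t ∣ twe_Nbal N Q ∅ := Nat.div_dvd_of_dvd htA
  haveI : Finite (twe_Delta p (Q.erase t)) := twe_chi_delta_finite p (Q.erase t)
  letI : Fintype (twe_Delta p Q) := twe_sld_fintype p Q
  letI : Fintype (twe_Delta p (Q.erase t)) := Fintype.ofFinite _
  have hQp' : ∀ t' ∈ Q.erase t, t'.Prime := fun t' ht' => hQp t' (Finset.mem_of_mem_erase ht')
  have hQM' : ∀ t' ∈ Q.erase t, t' ∣ M := fun t' ht' => hQM t' (Finset.mem_of_mem_erase ht')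
  have hle : (twe_di_hom p Q M hQp hQM).ker ≤ (twe_di_hom p (Q.erase t) M hQp' hQM').ker :=
    twe_di_erase_le p Q M hQp hQM t
  have hrel := twe_sri_level 𝒪 p hQ hM hodd hQp hQM
    (twe_sm_q (twe_Nbal N Q ∅) (S ∪ Q)) (fun i => i.2.2.1) F
  have hrelt := twe_sri_oldLevel 𝒪 p hQ hM hodd t ht hQp' hQM'
    (twe_sm_q (twe_Nbal N Q ∅) (S ∪ Q)) (fun i hd => i.2.2.1 (hd.trans hAtA))
    (twe_fx_frame_mono hle F)
  have hcyc : ∀ g : Gamma0 M, (g : SL(2, ℤ)) ∈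
      twe_GamH M (twe_di_hom p (Q.erase t) M hQp' hQM').ker →
      ∃ k : ℕ, twe_di_d1 p Q M hQp hQM g = twe_gen p Q t ht ^ k := by
    intro g hg
    rw [twe_mem_GamH] at hg
    exact twe_di_erase_cyclic p Q M hQp hQM t ht (twe_dUnit M g) hg.2
  have key := m59epl_old_gen (p := p) hp2 hp𝒪 θ ρbar hcompat hirr hNA
    (Finset.subset_union_left (s₁ := S) (s₂ := Q)) (Finset.mem_union_left Q hpS)
    (twe_sli_hNS' hNS hQp) θ'_eq B' hfull' hNAt hAtA hle F a ha hrel hrelt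
    (twe_di_neg_one_mem_GamH1 p Q M hQp hQM hodd)
    (m59epw_sli_hPE hp2 hrig (Dvd.intro _ hM.symm) Q hQp hQM)
    (twe_di_d1 p Q M hQp hQM) (twe_di_d1_surjective p Q M hQp hQM)
    (twe_di_d1_eq_one_iff p Q M hQp hQM)
    (twe_di_d1 p (Q.erase t) M hQp' hQM') (twe_di_d1_surjective p (Q.erase t) M hQp' hQM')
    (twe_di_d1_eq_one_iff p (Q.erase t) M hQp' hQM')
    (n := twe_di_exp p Q)
    (twe_di_delta_pow_exp p Q)
    (twe_di_delta_pow p (Q.erase t) _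
      (fun t' ht' => twe_di_le_exp p Q (Finset.mem_of_mem_erase ht')))
    (twe_gen p Q t ht) hcyc
  obtain ⟨θt, Bt, πt, hπt, hk⟩ := key
  exact twe_sok_oldAt_level (𝔇) t ht Bt πt hπt hk

end data

end Fermat.Agent.M59
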