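/-
Project M59 (S59), block [E'] (architect helper3), cell [EP-LG2] (helper5), tag `m59epl_`.
The clause `(L k).IsLG2` of `m59ep_Chain_stmt` for the levels built by [EP-TWIN]:

* `m59epl_isLG2` : `((m59epw_sli_data Ξ).toLevel).IsLG2` (same argument list `Ξ` as `m59epw_sli_data`):
  OLD-AT-`t` (`m59epl_old`, `LG2/OldLevel.lean`) + NEW-AT-`t` (`m59epl_new`, `LG2/NewLevel.lean`) at
  every `t ∈ Q`;
* `m59epl_level` : `m59epw_slf_level` WITH the clause: for every odd `p` under `m59ep_Rigid p N`, ANY level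
  `N`: ONE full base package `B`, and over it, at every Taylor–Wiles set `Q`, a unipotent system
  `L : twe_Level B p Q` with `L.IsLG2` (the level half of main's `twe_M2LG2_stmt`, which main itself
  only proves for the big system).
-/
import Mathlib
import Fermat.Agent.M59.EP.LG2.OldLevel
import Fermat.Agent.M59.EP.LG2.NewLevel
import Fermat.Agent.M59.EP.Twin.SeamLevelFinal

set_option autoImplicit false
set_option linter.unusedSectionVars false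
set_option linter.unusedVariables false
set_option linter.style.haveILetI false
set_option linter.overlappingInstances false
set_option synthInstance.maxHeartbeats 400000
set_option maxHeartbeats 1000000

noncomputable section

namespace Fermat.Agent.M59

open IsLocalRing Polynomial CuspForm Fermat.Agent.JT3 Fermat.Agent.LR CongruenceSubgroup Fermat.Agent.TW
open scoped MatrixGroups
open Fermat.Agent.S56

section data

variable {p : ℕ} [Fact p.Prime]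
  {𝒪 : Type} [CommRing 𝒪] [IsDomain 𝒪] [IsDiscreteValuationRing 𝒪]
  [IsAdicComplete (maximalIdeal 𝒪) 𝒪] [Finite (ResidueField 𝒪)] [CharZero 𝒪]
  {N : ℕ} [NeZero N] {S : Finset ℕ} {θ : heckeAlgebra N 2 (↑S : Set ℕ) →+* ResidueField 𝒪}

variable (hp2 : p ≠ 2) (hp𝒪 : (p : 𝒪) ∈ maximalIdeal 𝒪) (hrig : m59ep_Rigid p N)
    (hpS : p ∈ S) (hNS : ∀ ℓ : ℕ, ℓ.Prime → ℓ ∣ N → ℓ ∈ S)
    (ρbar : ResidualGaloisRep (ResidueField 𝒪)) (hcompat : twt_Compat θ ρbar)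
    (hirr : ρbar.IsAbsolutelyIrreducible)
    (B : twe_Base 𝒪 N S θ) (hfull : B.IsFull)
    (Q : Finset ℕ) [NeZero (twe_Nbal N Q ∅)] (hQS : ∀ t ∈ Q, t ∉ S) (hTW : twe_IsTWSet θ p Q)
    (θ' : heckeAlgebra (twe_Nbal N Q ∅) 2 (↑(S ∪ Q) : Set ℕ) →+* ResidueField 𝒪)
    (θ'_eq : ∀ (ℓ : ℕ) (hℓ : ℓ.Prime) (h1 : ¬ ℓ ∣ twe_Nbal N Q ∅) (h2 : ℓ ∉ (↑(S ∪ Q) : Set ℕ))
      (h3 : ¬ ℓ ∣ N) (h4 : ℓ ∉ (↑S : Set ℕ)),
      θ' (heckeAlgebra.T hℓ h1 h2) = θ (heckeAlgebra.T hℓ h3 h4))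
    (B' : twe_Base 𝒪 (twe_Nbal N Q ∅) (S ∪ Q) θ') (hfull' : B'.IsFull)
    {M : ℕ} [NeZero M] (hM : M = N * ∏ t ∈ Q, t)
    (hQp : ∀ t ∈ Q, t.Prime) (hQM : ∀ t ∈ Q, t ∣ M)
    (F : twe_sm_Frame M (twe_di_hom p Q M hQp hQM).ker (twe_sm_q (twe_Nbal N Q ∅) (S ∪ Q)))
    (a : twe_sm_Idx (twe_Nbal N Q ∅) (S ∪ Q) → 𝒪) (ha : twe_sm_IsLift θ' a)

/-- **the [E] → [A] clauses** for the level `(m59epw_sli_data Ξ).toLevel`. -/
theorem m59epl_isLG2 :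
    ((m59epw_sli_data hp2 hp𝒪 hrig hpS hNS ρbar hcompat hirr B hfull Q hQS hTW θ' θ'_eq B' hfull'
      hM hQp hQM F a ha).toLevel).IsLG2 :=
  fun t ht =>
    ⟨m59epl_old hp2 hp𝒪 hrig hpS hNS ρbar hcompat hirr B hfull Q hQS hTW θ' θ'_eq B' hfull' hM hQp
        hQM F a ha t ht,
      m59epl_new hp2 hp𝒪 hrig hpS hNS ρbar hcompat hirr B hfull Q hQS hTW θ' θ'_eq B' hfull' hM hQp
        hQM F a ha t ht⟩

end data

/-- **the unipotent half of (M2) WITH the [E] → [A] clauses**, for every odd `p` under rigidity, ANY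
level `N` (`p ∣ N` and non-squarefree `N` allowed). -/
theorem m59epl_level :
    ∀ (p : ℕ) [Fact p.Prime], p ≠ 2 →
    ∀ (𝒪 : Type) [CommRing 𝒪] [IsDomain 𝒪] [IsDiscreteValuationRing 𝒪]
      [IsAdicComplete (maximalIdeal 𝒪) 𝒪] [Finite (ResidueField 𝒪)] [CharZero 𝒪],
      (p : 𝒪) ∈ maximalIdeal 𝒪 →
    ∀ (N : ℕ) [NeZero N], m59ep_Rigid p N →
    ∀ (S : Finset ℕ), p ∈ S → (∀ ℓ : ℕ, ℓ.Prime → ℓ ∣ N → ℓ ∈ S) →
    ∀ (θ : heckeAlgebra N 2 (↑S : Set ℕ) →+* ResidueField 𝒪)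
      (ρbar : ResidualGaloisRep (ResidueField 𝒪)),
      twt_Compat θ ρbar → ρbar.IsAbsolutelyIrreducible →
      ∃ B : twe_Base 𝒪 N S θ, B.IsFull ∧
        ∀ (Q : Finset ℕ) [NeZero (twe_Nbal N Q ∅)], (∀ t ∈ Q, t ∉ S) → twe_IsTWSet θ p Q →
          ∃ L : twe_Level B p Q, L.IsLG2 := by
  intro p _ hp2 𝒪 _ _ _ _ _ _ hp𝒪 N _ hrig S hpS hNS θ ρbar hcompat hirr
  obtain ⟨B, hfull⟩ := m59epw_dt_M1F p hp2 𝒪 hp𝒪 N S hpS hNS θ ρbar hcompat hirr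
  refine ⟨B, hfull, fun Q _ hQS hTW => ?_⟩
  have hQp : ∀ t ∈ Q, t.Prime := fun t ht => (hTW t ht).1
  obtain ⟨θ', θ'_eq, -, B', hfull'⟩ := m59epw_slf_base hp2 hp𝒪 hpS hNS ρbar hcompat hirr Q hQS hTW
  have hM0 : N * ∏ t ∈ Q, t ≠ 0 :=
    mul_ne_zero (NeZero.ne N) (Finset.prod_ne_zero_iff.2 fun t ht => (hQp t ht).ne_zero)
  have : NeZero (N * ∏ t ∈ Q, t) := ⟨hM0⟩
  have hM : N * ∏ t ∈ Q, t = N * ∏ t ∈ Q, t := rfl
  have hQM := twe_sli_dvd_M hM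
  obtain ⟨F⟩ := m59epw_slf_exists_frame (p := p) (N := N) (S := S) hp2 Q hM hQp hQM
  obtain ⟨a, ha⟩ := twe_slf_exists_lift θ'
  exact ⟨_, m59epl_isLG2 hp2 hp𝒪 hrig hpS hNS ρbar hcompat hirr B hfull Q hQS hTW θ' θ'_eq B'
    hfull' hM hQp hQM F a ha⟩

end Fermat.Agent.M59
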